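import Mathlib

/-!
# The integral up to a common multiple

`∫_{0 < x ≤ X} {x/a} {x/b} dx / x²`, opened with `{y} = y - ⌊y⌋`, as a finite sum.
-/

set_option autoImplicit false

noncomputable section

open MeasureTheory Set Filter

namespace FA.Vasyunin

/-- The integrand `{x / a} {x / b} / x²`. -/
def integrand (a b : ℕ) (x : ℝ) : ℝ := Int.fract (x / a) * Int.fract (x / b) / x ^ 2

theorem measurable_integrand (a b : ℕ) : Measurable (integrand a b) := by
  unfold integrand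
  fun_prop

theorem integrable_integrand {a b : ℕ} (ha : 0 < a) (hb : 0 < b) :
    IntegrableOn (integrand a b) (Set.Ioi 0) := by
  have hA : (0 : ℝ) < a := Nat.cast_pos.2 ha
  have hB : (0 : ℝ) < b := Nat.cast_pos.2 hb
  have hfr : ∀ {y : ℝ}, 0 ≤ y → Int.fract y ≤ y := fun {y} hy => by
    rw [Int.fract]
    have : (0 : ℝ) ≤ (⌊y⌋ : ℝ) := by exact_mod_cast Int.floor_nonneg.2 hy
    linarith
  rw [← Ioc_union_Ioi_eq_Ioi (zero_le_one (α := ℝ)), integrableOn_union]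
  constructor
  · refine Integrable.mono' (integrable_const (1 / ((a : ℝ) * b)))
      (measurable_integrand a b).aestronglyMeasurable ?_
    filter_upwards [ae_restrict_mem measurableSet_Ioc] with x hx
    have hx0 : 0 < x := hx.1
    rw [integrand, Real.norm_of_nonneg (div_nonneg (mul_nonneg (Int.fract_nonneg _)
      (Int.fract_nonneg _)) (sq_nonneg _)), div_le_div_iff₀ (by positivity) (by positivity),
      one_mul]
    calc Int.fract (x / a) * Int.fract (x / b) * ((a : ℝ) * b)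
        ≤ x / a * (x / b) * ((a : ℝ) * b) := mul_le_mul_of_nonneg_right
          (mul_le_mul (hfr (by positivity)) (hfr (by positivity)) (Int.fract_nonneg _)
            (by positivity)) (by positivity)
      _ = x ^ 2 := by field_simp
  · refine Integrable.mono' (integrableOn_Ioi_rpow_of_lt (by norm_num : (-2 : ℝ) < -1) one_pos)
      (measurable_integrand a b).aestronglyMeasurable ?_
    filter_upwards [ae_restrict_mem measurableSet_Ioi] with x hx
    have hx0 : 0 < x := lt_trans one_pos hx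
    rw [integrand, Real.norm_of_nonneg (div_nonneg (mul_nonneg (Int.fract_nonneg _)
      (Int.fract_nonneg _)) (sq_nonneg _)), Real.rpow_neg hx0.le, Real.rpow_two, ← one_div]
    gcongr
    exact mul_le_one₀ (Int.fract_lt_one _).le (Int.fract_nonneg _) (Int.fract_lt_one _).le

/-- `g` from `c` onwards. -/
def step (c : ℝ) (g : ℝ → ℝ) : ℝ → ℝ := (Set.Ici c).indicator g

theorem integral_step {c X : ℝ} (hc : 0 < c) (hcX : c ≤ X) {g : ℝ → ℝ}
    (hg : ContinuousOn g (Set.Icc c X)) :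
    IntegrableOn (step c g) (Set.Ioc 0 X) ∧
      ∫ x in Set.Ioc 0 X, step c g x = ∫ x in c..X, g x := by
  have hset : Set.Ici c ∩ Set.Ioc 0 X = Set.Icc c X := by
    ext x
    simp only [Set.mem_inter_iff, Set.mem_Ici, Set.mem_Ioc, Set.mem_Icc]
    exact ⟨fun h => ⟨h.1, h.2.2⟩, fun h => ⟨h.1, lt_of_lt_of_le hc h.1, h.2⟩⟩
  refine ⟨?_, ?_⟩
  · refine (integrable_indicator_iff measurableSet_Ici).2 ?_
    rw [IntegrableOn, Measure.restrict_restrict measurableSet_Ici, hset]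
    exact hg.integrableOn_Icc
  · rw [step, integral_indicator measurableSet_Ici, Measure.restrict_restrict measurableSet_Ici,
      hset, intervalIntegral.integral_of_le hcX, integral_Icc_eq_integral_Ioc]

theorem integral_step_inv {c X : ℝ} (hc : 0 < c) (hcX : c ≤ X) :
    IntegrableOn (step c fun x => x⁻¹) (Set.Ioc 0 X) ∧
      ∫ x in Set.Ioc 0 X, step c (fun x => x⁻¹) x = Real.log (X / c) := by
  obtain ⟨h1, h2⟩ := integral_step hc hcX (g := fun x => x⁻¹)
    (continuousOn_id.inv₀ fun x hx => (lt_of_lt_of_le hc hx.1).ne')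
  exact ⟨h1, h2.trans (integral_inv_of_pos hc (lt_of_lt_of_le hc hcX))⟩

theorem integral_step_sq {c X : ℝ} (hc : 0 < c) (hcX : c ≤ X) :
    IntegrableOn (step c fun x => (x ^ 2)⁻¹) (Set.Ioc 0 X) ∧
      ∫ x in Set.Ioc 0 X, step c (fun x => (x ^ 2)⁻¹) x = 1 / c - 1 / X := by
  obtain ⟨h1, h2⟩ := integral_step hc hcX (g := fun x => (x ^ 2)⁻¹)
    ((continuousOn_id.pow 2).inv₀ fun x hx => pow_ne_zero 2 (lt_of_lt_of_le hc hx.1).ne')
  refine ⟨h1, h2.trans ?_⟩
  have h0 : (0 : ℝ) ∉ Set.uIcc c X := Set.notMem_uIcc_of_lt hc (lt_of_lt_of_le hc hcX)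
  have h := integral_zpow (n := -2) (a := c) (b := X) (Or.inr ⟨by norm_num, h0⟩)
  simp only [zpow_neg, zpow_ofNat] at h
  rw [h]
  norm_num [zpow_neg_one]
  ring

theorem floor_eq_sum {c : ℕ} (hc : 0 < c) {M : ℕ} {x : ℝ} (hx : 0 ≤ x) (hxM : x ≤ M * c) :
    ((⌊x / c⌋ : ℤ) : ℝ) = ∑ n ∈ Finset.Icc 1 M, if (n : ℝ) * c ≤ x then (1 : ℝ) else 0 := by
  have hC : (0 : ℝ) < c := Nat.cast_pos.2 hc
  rw [Finset.sum_boole]
  have h : (Finset.Icc 1 M).filter (fun n : ℕ => (n : ℝ) * c ≤ x) = Finset.Icc 1 ⌊x / c⌋₊ := by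
    ext n
    simp only [Finset.mem_filter, Finset.mem_Icc]
    rw [Nat.le_floor_iff (by positivity), le_div_iff₀ hC]
    refine ⟨fun h => ⟨h.1.1, h.2⟩, fun h => ⟨⟨h.1, ?_⟩, h.2⟩⟩
    exact_mod_cast le_of_mul_le_mul_right (h.2.trans hxM) hC
  rw [h, Nat.card_Icc, Nat.add_sub_cancel, natCast_floor_eq_intCast_floor (by positivity)]

/-- **The integral up to `X = K a = M b`.** -/
theorem integral_upto {a b K M : ℕ} (ha : 0 < a) (hb : 0 < b) (hM : 0 < M)
    (hKM : K * a = M * b) :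
    ∫ x in Set.Ioc (0 : ℝ) ((M : ℝ) * b), integrand a b x =
      (M : ℝ) * b / ((a : ℝ) * b) - (1 / a) * ∑ n ∈ Finset.Icc 1 M, Real.log ((M : ℝ) / n) -
        (1 / b) * ∑ m ∈ Finset.Icc 1 K, Real.log ((K : ℝ) / m) +
        ∑ m ∈ Finset.Icc 1 K, ∑ n ∈ Finset.Icc 1 M,
          (1 / max ((m : ℝ) * a) ((n : ℝ) * b) - 1 / ((M : ℝ) * b)) := by
  have hA : (0 : ℝ) < a := Nat.cast_pos.2 ha
  have hB : (0 : ℝ) < b := Nat.cast_pos.2 hb
  have hX : (0 : ℝ) < (M : ℝ) * b := mul_pos (Nat.cast_pos.2 hM) hB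
  have hKX : (K : ℝ) * a = (M : ℝ) * b := by exact_mod_cast hKM
  have hn : ∀ n ∈ Finset.Icc 1 M, 0 < (n : ℝ) * b ∧ (n : ℝ) * b ≤ (M : ℝ) * b := fun n hn =>
    ⟨mul_pos (Nat.cast_pos.2 (Finset.mem_Icc.1 hn).1) hB,
      mul_le_mul_of_nonneg_right (Nat.cast_le.2 (Finset.mem_Icc.1 hn).2) hB.le⟩
  have hm : ∀ m ∈ Finset.Icc 1 K, 0 < (m : ℝ) * a ∧ (m : ℝ) * a ≤ (M : ℝ) * b := fun m hm =>
    ⟨mul_pos (Nat.cast_pos.2 (Finset.mem_Icc.1 hm).1) hA,
      hKX ▸ mul_le_mul_of_nonneg_right (Nat.cast_le.2 (Finset.mem_Icc.1 hm).2) hA.le⟩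
  have hmax : ∀ m ∈ Finset.Icc 1 K, ∀ n ∈ Finset.Icc 1 M,
      0 < max ((m : ℝ) * a) ((n : ℝ) * b) ∧ max ((m : ℝ) * a) ((n : ℝ) * b) ≤ (M : ℝ) * b :=
    fun m h1 n h2 => ⟨lt_max_of_lt_left (hm m h1).1, max_le (hm m h1).2 (hn n h2).2⟩
  have i0 : IntegrableOn (fun _ : ℝ => 1 / ((a : ℝ) * b)) (Set.Ioc 0 ((M : ℝ) * b)) :=
    integrableOn_const measure_Ioc_lt_top.ne
  have i1 : IntegrableOn (fun x => 1 / (a : ℝ) *
      ∑ n ∈ Finset.Icc 1 M, step ((n : ℝ) * b) (fun y => y⁻¹) x) (Set.Ioc 0 ((M : ℝ) * b)) :=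
    (integrable_finsetSum _ fun n h => (integral_step_inv (hn n h).1 (hn n h).2).1).const_mul _
  have i2 : IntegrableOn (fun x => 1 / (b : ℝ) *
      ∑ m ∈ Finset.Icc 1 K, step ((m : ℝ) * a) (fun y => y⁻¹) x) (Set.Ioc 0 ((M : ℝ) * b)) :=
    (integrable_finsetSum _ fun m h => (integral_step_inv (hm m h).1 (hm m h).2).1).const_mul _
  have i3 : IntegrableOn (fun x => ∑ m ∈ Finset.Icc 1 K, ∑ n ∈ Finset.Icc 1 M,
      step (max ((m : ℝ) * a) ((n : ℝ) * b)) (fun y => (y ^ 2)⁻¹) x)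
      (Set.Ioc 0 ((M : ℝ) * b)) :=
    integrable_finsetSum _ fun m h1 => integrable_finsetSum _ fun n h2 =>
      (integral_step_sq (hmax m h1 n h2).1 (hmax m h1 n h2).2).1
  have hpt : ∀ x ∈ Set.Ioc (0 : ℝ) ((M : ℝ) * b), integrand a b x =
      1 / ((a : ℝ) * b) - 1 / (a : ℝ) * ∑ n ∈ Finset.Icc 1 M, step ((n : ℝ) * b) (fun y => y⁻¹) x -
        1 / (b : ℝ) * ∑ m ∈ Finset.Icc 1 K, step ((m : ℝ) * a) (fun y => y⁻¹) x +
        ∑ m ∈ Finset.Icc 1 K, ∑ n ∈ Finset.Icc 1 M,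
          step (max ((m : ℝ) * a) ((n : ℝ) * b)) (fun y => (y ^ 2)⁻¹) x := by
    intro x hx
    have h1 := floor_eq_sum ha hx.1.le (M := K) (by rw [hKX]; exact hx.2)
    have h2 := floor_eq_sum hb hx.1.le hx.2
    have es : ∀ (c : ℝ) (g : ℝ → ℝ), step c g x = (if c ≤ x then (1 : ℝ) else 0) * g x :=
      fun c g => by
        rw [step, Set.indicator_apply]
        simp only [Set.mem_Ici, ite_mul, one_mul, zero_mul]
    have emax : ∀ m n : ℕ, (if max ((m : ℝ) * a) ((n : ℝ) * b) ≤ x then (1 : ℝ) else 0) =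
        (if (m : ℝ) * a ≤ x then (1 : ℝ) else 0) * if (n : ℝ) * b ≤ x then (1 : ℝ) else 0 :=
      fun m n => by
        simp only [max_le_iff, ite_and, mul_ite, mul_one, mul_zero]
        split_ifs <;> rfl
    simp only [es, emax, ← Finset.sum_mul, ← Finset.mul_sum]
    rw [← h1, ← h2, integrand, Int.fract, Int.fract]
    have hx0 : x ≠ 0 := hx.1.ne'
    field_simp
    ring
  have i01 : IntegrableOn (fun x => 1 / ((a : ℝ) * b) -
      1 / (a : ℝ) * ∑ n ∈ Finset.Icc 1 M, step ((n : ℝ) * b) (fun y => y⁻¹) x)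
      (Set.Ioc 0 ((M : ℝ) * b)) := i0.sub i1
  have i012 : IntegrableOn (fun x => 1 / ((a : ℝ) * b) -
      1 / (a : ℝ) * ∑ n ∈ Finset.Icc 1 M, step ((n : ℝ) * b) (fun y => y⁻¹) x -
      1 / (b : ℝ) * ∑ m ∈ Finset.Icc 1 K, step ((m : ℝ) * a) (fun y => y⁻¹) x)
      (Set.Ioc 0 ((M : ℝ) * b)) := i01.sub i2
  rw [setIntegral_congr_fun measurableSet_Ioc hpt, integral_add i012 i3, integral_sub i01 i2,
    integral_sub i0 i1, integral_const_mul, integral_const_mul, setIntegral_const, smul_eq_mul,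
    Real.volume_real_Ioc_of_le hX.le, sub_zero,
    integral_finsetSum _ fun n h => (integral_step_inv (hn n h).1 (hn n h).2).1,
    integral_finsetSum _ fun m h => (integral_step_inv (hm m h).1 (hm m h).2).1,
    integral_finsetSum _ fun m h1 => integrable_finsetSum _ fun n h2 =>
      (integral_step_sq (hmax m h1 n h2).1 (hmax m h1 n h2).2).1,
    mul_one_div,
    Finset.sum_congr rfl fun n h => (integral_step_inv (hn n h).1 (hn n h).2).2,
    Finset.sum_congr rfl fun m h => (integral_step_inv (hm m h).1 (hm m h).2).2,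
    Finset.sum_congr rfl fun m h1 => (integral_finsetSum _ fun n h2 =>
      (integral_step_sq (hmax m h1 n h2).1 (hmax m h1 n h2).2).1).trans
        (Finset.sum_congr rfl fun n h2 =>
          (integral_step_sq (hmax m h1 n h2).1 (hmax m h1 n h2).2).2)]
  simp only [mul_div_mul_right _ _ hB.ne']
  simp only [← hKX, mul_div_mul_right _ _ hA.ne']

end FA.Vasyunin

end
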