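import Fermat.Agent.GaussDigamma.Main
import Fermat.Agent.Vasyunin.Integral
import Mathlib.Analysis.SpecialFunctions.Stirling

/-!
# Vasyunin's formula

With `X = N a b` the double sum is counted by multiples, the logarithms go by Stirling's formula
and the periodic sums `∑ w n / n` by the series for the digamma function; reflection turns
`∑ (r a mod b) ψ (r / b)` into cotangents.
-/

set_option autoImplicit false

noncomputable section

open MeasureTheory Filter Topology Finset
open scoped Real Nat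

namespace FA.Vasyunin

/-- The digamma function on positive reals. -/
def psiR (x : ℝ) : ℝ := (Complex.digamma (x : ℂ)).re

theorem tendsto_psiR {x : ℝ} (hx : 0 < x) :
    Tendsto (fun N : ℕ => Real.log N - ∑ j ∈ range N, (x + j)⁻¹) atTop (𝓝 (psiR x)) := by
  have h := (Complex.continuous_re.tendsto _).comp (FA.GaussDigamma.tendsto_digamma hx)
  exact h.congr fun N => Complex.ofReal_re _

theorem psiR_one : psiR 1 = -Real.eulerMascheroniConstant := by
  rw [psiR, Complex.ofReal_one, Complex.digamma_one, Complex.neg_re, Complex.ofReal_re]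

/-- Reflection, at rational points. -/
theorem psiR_reflect {r q : ℕ} (h0 : 0 < r) (h : r < q) :
    psiR (((q - r : ℕ) : ℝ) / q) - psiR ((r : ℝ) / q) = π * Real.cot (π * r / q) := by
  have hq : (0 : ℝ) < q := Nat.cast_pos.2 (by omega)
  rw [psiR, psiR, Complex.ofReal_div, Complex.ofReal_div, Complex.ofReal_natCast,
    Complex.ofReal_natCast, Complex.ofReal_natCast,
    FA.GaussDigamma.gauss_digamma (by omega) (by omega), FA.GaussDigamma.gauss_digamma h0 h,
    Complex.ofReal_re, Complex.ofReal_re]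
  have hcot : Real.cot (π * ((q - r : ℕ) : ℝ) / q) = -Real.cot (π * r / q) := by
    rw [Nat.cast_sub h.le, show π * ((q : ℝ) - r) / q = π - π * r / q by field_simp,
      Real.cot_eq_cos_div_sin, Real.cot_eq_cos_div_sin, Real.cos_pi_sub, Real.sin_pi_sub, neg_div]
  have hcos : ∀ k : ℕ, Real.cos (2 * π * k * ((q - r : ℕ) : ℝ) / q) =
      Real.cos (2 * π * k * r / q) := fun k => by
    rw [Nat.cast_sub h.le, show 2 * π * k * ((q : ℝ) - r) / q =
      (k : ℝ) * (2 * π) - 2 * π * k * r / q by field_simp, Real.cos_nat_mul_two_pi_sub]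
  simp only [hcot, hcos]
  ring

theorem sum_periodic {q : ℕ} (hq : 0 < q) (w : ℕ → ℝ) (hw : Function.Periodic w q) :
    Tendsto (fun N : ℕ => ∑ n ∈ Icc 1 (N * q), w n / n -
        (∑ r ∈ Icc 1 q, w r) / q * Real.log N) atTop
      (𝓝 (-(1 / q) * ∑ r ∈ Icc 1 q, w r * psiR ((r : ℝ) / q))) := by
  have hQ : (0 : ℝ) < q := Nat.cast_pos.2 hq
  have e : ∀ N : ℕ, ∑ n ∈ Icc 1 (N * q), w n / n - (∑ r ∈ Icc 1 q, w r) / q * Real.log N =
      -(1 / q) * ∑ r ∈ Icc 1 q, w r * (Real.log N - ∑ j ∈ range N, ((r : ℝ) / q + j)⁻¹) := by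
    intro N
    have hs : ∑ n ∈ Icc 1 (N * q), w n / n =
        ∑ r ∈ Icc 1 q, ∑ j ∈ range N, w r / ((r : ℝ) + j * q) := by
      induction N with
      | zero => simp
      | succ N ih =>
        rw [Finset.sum_congr rfl fun r (_ : r ∈ Icc 1 q) => Finset.sum_range_succ
          (fun j : ℕ => w r / ((r : ℝ) + j * q)) N, Finset.sum_add_distrib, ← ih,
          show (N + 1) * q = N * q + q by ring]
        rw [← Finset.sum_image (s := Icc 1 q) (g := fun r : ℕ => r + N * q)
          (f := fun n : ℕ => w n / n) (fun x _ y _ h => by simpa using h) |>.trans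
          (Finset.sum_congr rfl fun r _ => by
            rw [show w (r + N * q) = w r from hw.nat_mul N r]; push_cast; rfl),
          ← Finset.sum_union]
        · refine Finset.sum_congr ?_ fun _ _ => rfl
          rw [Finset.image_add_right_Icc]
          ext n
          simp only [Finset.mem_union, Finset.mem_Icc]
          omega
        · rw [Finset.image_add_right_Icc, Finset.disjoint_left]
          intro n h1 h2
          simp only [Finset.mem_Icc] at h1 h2
          omega
    rw [hs, Finset.sum_div, Finset.sum_mul, ← Finset.sum_sub_distrib, Finset.mul_sum]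
    refine Finset.sum_congr rfl fun r _ => ?_
    rw [mul_sub, mul_sub, Finset.mul_sum, Finset.mul_sum]
    have : ∀ j : ℕ, w r / ((r : ℝ) + j * q) = 1 / q * (w r * ((r : ℝ) / q + j)⁻¹) := fun j => by
      rw [show (r : ℝ) / q + j = ((r : ℝ) + j * q) / q by field_simp, inv_div]
      field_simp
    simp only [this, neg_mul, Finset.sum_neg_distrib]
    ring
  simp only [e]
  refine (tendsto_finsetSum _ fun r hr => (tendsto_psiR ?_).const_mul _).const_mul _
  exact div_pos (Nat.cast_pos.2 (Finset.mem_Icc.1 hr).1) hQ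

theorem sum_psiR {q : ℕ} (hq : 0 < q) :
    ∑ r ∈ Icc 1 q, psiR ((r : ℝ) / q) =
      -(q : ℝ) * Real.eulerMascheroniConstant - q * Real.log q := by
  have hQ : (0 : ℝ) < q := Nat.cast_pos.2 hq
  have h := sum_periodic hq (fun _ => (1 : ℝ)) (fun _ => rfl)
  simp only [Finset.sum_const, Nat.card_Icc, Nat.add_sub_cancel, nsmul_eq_mul, mul_one, one_mul,
    div_self hQ.ne'] at h
  have h1 : Tendsto (fun N : ℕ => ∑ n ∈ Icc 1 (N * q), 1 / (n : ℝ) - Real.log N) atTop
      (𝓝 (Real.eulerMascheroniConstant + Real.log q)) := by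
    have hg := sum_periodic one_pos (fun _ => (1 : ℝ)) (fun _ => rfl)
    simp only [Finset.Icc_self, Finset.sum_singleton, Nat.cast_one, div_one, one_mul, mul_one,
      psiR_one, neg_neg, neg_mul] at hg
    have ht := (hg.comp ((tendsto_id.atTop_mul_const' (r := q) hq))).add_const (Real.log q)
    refine ht.congr' ?_
    filter_upwards [eventually_gt_atTop 0] with N hN
    simp only [Function.comp_apply, id]
    rw [Nat.cast_mul, Real.log_mul (Nat.cast_pos.2 hN).ne' hQ.ne']
    ring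
  have := tendsto_nhds_unique h h1
  field_simp at this
  linarith

theorem sum_log_div (n : ℕ) :
    ∑ m ∈ Icc 1 n, Real.log ((n : ℝ) / m) = n * Real.log n - Real.log (n ! : ℝ) := by
  rcases Nat.eq_zero_or_pos n with rfl | hn
  · simp
  have hf : ∀ k : ℕ, ∑ m ∈ Icc 1 k, Real.log (m : ℝ) = Real.log (k ! : ℝ) := fun k => by
    induction k with
    | zero => simp
    | succ k ih =>
      rw [Finset.sum_Icc_succ_top (by omega), ih, Nat.factorial_succ, Nat.cast_mul,
        Real.log_mul (by positivity) (Nat.cast_ne_zero.2 (Nat.factorial_ne_zero k)), add_comm]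
  rw [← hf, Finset.sum_congr rfl fun m hm => Real.log_div (Nat.cast_pos.2 hn).ne'
    (Nat.cast_pos.2 (Finset.mem_Icc.1 hm).1).ne', Finset.sum_sub_distrib, Finset.sum_const,
    Nat.card_Icc, Nat.add_sub_cancel, nsmul_eq_mul]

theorem tendsto_sum_log_div :
    Tendsto (fun n : ℕ => ∑ m ∈ Icc 1 n, Real.log ((n : ℝ) / m) - n + Real.log n / 2) atTop
      (𝓝 (-Real.log (2 * π) / 2)) := by
  have h := (Stirling.tendsto_stirlingSeq_sqrt_pi.log (by positivity)).neg.sub_const
    (Real.log 2 / 2)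
  rw [Real.log_sqrt Real.pi_pos.le, show -(Real.log π / 2) - Real.log 2 / 2 =
    -Real.log (2 * π) / 2 by rw [Real.log_mul two_ne_zero Real.pi_pos.ne']; ring] at h
  refine h.congr' ?_
  filter_upwards [eventually_gt_atTop 0] with n hn
  have hN : (0 : ℝ) < n := Nat.cast_pos.2 hn
  rw [sum_log_div, Stirling.stirlingSeq, Real.log_div (by positivity) (by positivity),
    Real.log_mul (by positivity) (by positivity), Real.log_sqrt (by positivity),
    Real.log_mul two_ne_zero hN.ne', Real.log_pow, Real.log_div hN.ne' (Real.exp_pos 1).ne',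
    Real.log_exp]
  ring

theorem card_left {a b M m : ℕ} (hb : 0 < b) (h : m * a ≤ M * b) :
    #((Icc 1 M).filter fun n => n * b ≤ m * a) = m * a / b := by
  have e : (Icc 1 M).filter (fun n => n * b ≤ m * a) = Icc 1 (m * a / b) := by
    ext n
    simp only [Finset.mem_filter, Finset.mem_Icc, Nat.le_div_iff_mul_le hb]
    refine ⟨fun hn => ⟨hn.1.1, hn.2⟩, fun hn => ⟨⟨hn.1, ?_⟩, hn.2⟩⟩
    exact Nat.le_of_mul_le_mul_right (hn.2.trans h) hb
  rw [e, Nat.card_Icc, Nat.add_sub_cancel]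

theorem card_right {a b K n : ℕ} (ha : 0 < a) (h : n * b ≤ K * a) :
    #((Icc 1 K).filter fun m => m * a < n * b) = (n * b - 1) / a := by
  have e : (Icc 1 K).filter (fun m => m * a < n * b) = Icc 1 ((n * b - 1) / a) := by
    ext m
    simp only [Finset.mem_filter, Finset.mem_Icc, Nat.le_div_iff_mul_le ha]
    refine ⟨fun hm => ⟨hm.1.1, by omega⟩, fun hm => ?_⟩
    have h2 := Nat.le_mul_of_pos_left a hm.1
    have h3 : m * a < n * b := by omega
    exact ⟨⟨hm.1, (Nat.lt_of_mul_lt_mul_right (h3.trans_le h)).le⟩, h3⟩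
  rw [e, Nat.card_Icc, Nat.add_sub_cancel]

/-- The periodic weight of the second sum. -/
def wt (a b n : ℕ) : ℝ := ((n * b % a : ℕ) : ℝ) + if a ∣ n then (a : ℝ) else 0

theorem double_sum {a b : ℕ} (ha : 0 < a) (hb : 0 < b) (hab : Nat.Coprime a b) (N : ℕ) :
    ∑ m ∈ Icc 1 (N * b), ∑ n ∈ Icc 1 (N * a), 1 / max ((m : ℝ) * a) ((n : ℝ) * b) =
      2 * N - 1 / ((a : ℝ) * b) * (∑ m ∈ Icc 1 (N * b), ((m * a % b : ℕ) : ℝ) / m +
        ∑ n ∈ Icc 1 (N * a), wt a b n / n) := by
  have hA : (0 : ℝ) < a := Nat.cast_pos.2 ha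
  have hB : (0 : ℝ) < b := Nat.cast_pos.2 hb
  have hsplit : ∀ m n : ℕ, 1 / max ((m : ℝ) * a) ((n : ℝ) * b) =
      (if n * b ≤ m * a then 1 / ((m : ℝ) * a) else 0) +
        (if m * a < n * b then 1 / ((n : ℝ) * b) else 0) := fun m n => by
    rcases le_or_gt (n * b) (m * a) with h | h
    · rw [if_pos h, if_neg (not_lt.2 h), add_zero, max_eq_left (by exact_mod_cast h)]
    · rw [if_neg (not_le.2 h), if_pos h, zero_add, max_eq_right (by exact_mod_cast h.le)]
  simp only [hsplit, Finset.sum_add_distrib]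
  rw [Finset.sum_comm (s := Icc 1 (N * b)) (t := Icc 1 (N * a))
    (f := fun m n => if m * a < n * b then 1 / ((n : ℝ) * b) else 0)]
  have h1 : ∀ m ∈ Icc 1 (N * b), (∑ n ∈ Icc 1 (N * a),
      if n * b ≤ m * a then 1 / ((m : ℝ) * a) else 0) =
        1 / b - 1 / ((a : ℝ) * b) * (((m * a % b : ℕ) : ℝ) / m) := by
    intro m hm
    have hm0 : (0 : ℝ) < m := Nat.cast_pos.2 (Finset.mem_Icc.1 hm).1
    have hle : m * a ≤ N * a * b :=
      (Nat.mul_le_mul_right a (Finset.mem_Icc.1 hm).2).trans_eq (by ring)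
    rw [← Finset.sum_filter, Finset.sum_const, nsmul_eq_mul, card_left hb hle]
    have e : ((m * a % b : ℕ) : ℝ) + b * ((m * a / b : ℕ) : ℝ) = (m : ℝ) * a := by
      exact_mod_cast Nat.mod_add_div (m * a) b
    field_simp
    linear_combination e
  have h2 : ∀ n ∈ Icc 1 (N * a), (∑ m ∈ Icc 1 (N * b),
      if m * a < n * b then 1 / ((n : ℝ) * b) else 0) =
        1 / a - 1 / ((a : ℝ) * b) * (wt a b n / n) := by
    intro n hn
    have hn1 := (Finset.mem_Icc.1 hn).1
    have hn0 : (0 : ℝ) < n := Nat.cast_pos.2 hn1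
    have hle : n * b ≤ N * b * a :=
      (Nat.mul_le_mul_right b (Finset.mem_Icc.1 hn).2).trans_eq (by ring)
    rw [← Finset.sum_filter, Finset.sum_const, nsmul_eq_mul, card_right ha hle]
    have hpos : n * b - 1 + 1 = n * b := Nat.sub_add_cancel (Nat.mul_pos hn1 hb)
    have e1 := Nat.succ_div (a := n * b - 1) (b := a)
    rw [hpos] at e1
    have e : ((n * b % a : ℕ) : ℝ) + a * ((n * b / a : ℕ) : ℝ) = (n : ℝ) * b := by
      exact_mod_cast Nat.mod_add_div (n * b) a
    have hdvd : a ∣ n * b ↔ a ∣ n := hab.dvd_mul_right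
    simp only [hdvd] at e1
    rw [e1] at e
    rw [wt]
    split_ifs with h <;> simp only [h, if_true, if_false] at e <;> push_cast at e <;>
      field_simp <;> linear_combination e
  rw [Finset.sum_congr rfl h1, Finset.sum_congr rfl h2, Finset.sum_sub_distrib,
    Finset.sum_sub_distrib, ← Finset.mul_sum, ← Finset.mul_sum, Finset.sum_const,
    Finset.sum_const, Nat.card_Icc, Nat.card_Icc, Nat.add_sub_cancel, Nat.add_sub_cancel,
    nsmul_eq_mul, nsmul_eq_mul]
  push_cast
  field_simp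
  ring

/-- Vasyunin's cotangent sum `∑ {m a / b} cot (π m / b)`. -/
def cotSum (a b : ℕ) : ℝ :=
  ∑ m ∈ Ico 1 b, ((m * a % b : ℕ) : ℝ) / b * Real.cot (π * m / b)

theorem mod_reflect {a b r : ℕ} (hab : Nat.Coprime a b) (h0 : 0 < r) (h : r < b) :
    r * a % b + (b - r) * a % b = b := by
  have hne : r * a % b ≠ 0 := fun h' => by
    have := (Nat.Coprime.dvd_mul_right hab.symm).1 (Nat.dvd_of_mod_eq_zero h')
    exact absurd (Nat.le_of_dvd h0 this) (not_le.2 h)
  have hs : ((r * a % b) + ((b - r) * a % b)) % b = 0 := by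
    rw [← Nat.add_mod, ← Nat.add_mul, Nat.add_sub_cancel' h.le, Nat.mul_mod_right]
  have h1 := Nat.mod_lt (r * a) (show 0 < b by omega)
  have h2 := Nat.mod_lt ((b - r) * a) (show 0 < b by omega)
  obtain ⟨k, hk⟩ := Nat.dvd_of_mod_eq_zero hs
  rcases k with _ | _ | k
  · omega
  · omega
  · have : b * (k + 1 + 1) = b * k + 2 * b := by ring
    omega

theorem sum_reflect (b : ℕ) (f : ℕ → ℝ) :
    ∑ r ∈ Ico 1 b, f (b - r) = ∑ r ∈ Ico 1 b, f r := by
  refine Finset.sum_nbij' (fun r => b - r) (fun r => b - r) ?_ ?_ ?_ ?_ fun r _ => rfl <;>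
    intro r hr <;> simp only [Finset.mem_Ico] at hr ⊢ <;> omega

theorem sum_mod_eq {a b : ℕ} (hb : 0 < b) (hab : Nat.Coprime a b) :
    ∑ r ∈ Icc 1 b, ((r * a % b : ℕ) : ℝ) = (b : ℝ) * (b - 1) / 2 := by
  rw [← Finset.Ico_insert_right (show 1 ≤ b from hb), Finset.sum_insert (by simp),
    Nat.mul_mod_right, Nat.cast_zero, zero_add]
  have h := sum_reflect b fun r => ((r * a % b : ℕ) : ℝ)
  have h2 : ∑ r ∈ Ico 1 b, (((r * a % b : ℕ) : ℝ) + (((b - r) * a % b : ℕ) : ℝ)) =
      ((b : ℝ) - 1) * b := by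
    rw [Finset.sum_congr rfl fun r hr => by
      rw [← Nat.cast_add, mod_reflect hab (Finset.mem_Ico.1 hr).1 (Finset.mem_Ico.1 hr).2],
      Finset.sum_const, Nat.card_Ico, nsmul_eq_mul, Nat.cast_sub (show 1 ≤ b from hb),
      Nat.cast_one]
  rw [Finset.sum_add_distrib] at h2
  linarith

theorem sum_mod_psiR {a b : ℕ} (hb : 0 < b) (hab : Nat.Coprime a b) :
    2 * ∑ r ∈ Icc 1 b, ((r * a % b : ℕ) : ℝ) * psiR ((r : ℝ) / b) =
      (b : ℝ) * (-((b : ℝ) - 1) * Real.eulerMascheroniConstant - b * Real.log b -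
        π * cotSum a b) := by
  have hB : (0 : ℝ) < b := Nat.cast_pos.2 hb
  have hins : Icc 1 b = insert b (Ico 1 b) := (Finset.Ico_insert_right (show 1 ≤ b from hb)).symm
  have hsum := sum_psiR hb
  rw [hins, Finset.sum_insert (by simp), div_self hB.ne', psiR_one] at hsum
  rw [hins, Finset.sum_insert (by simp), Nat.mul_mod_right, Nat.cast_zero, zero_mul, zero_add,
    two_mul]
  nth_rewrite 2 [← sum_reflect b]
  rw [← Finset.sum_add_distrib]
  have e : ∀ r ∈ Ico 1 b, ((r * a % b : ℕ) : ℝ) * psiR ((r : ℝ) / b) +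
      (((b - r) * a % b : ℕ) : ℝ) * psiR (((b - r : ℕ) : ℝ) / b) =
      (b : ℝ) * psiR (((b - r : ℕ) : ℝ) / b) -
        (b : ℝ) * π * (((r * a % b : ℕ) : ℝ) / b * Real.cot (π * r / b)) := by
    intro r hr
    obtain ⟨h0, h⟩ := Finset.mem_Ico.1 hr
    have hm : ((r * a % b : ℕ) : ℝ) + (((b - r) * a % b : ℕ) : ℝ) = b := by
      exact_mod_cast mod_reflect hab h0 h
    have hrf := psiR_reflect h0 h
    generalize Real.cot (π * r / b) = C at hrf ⊢
    field_simp
    linear_combination psiR (((b - r : ℕ) : ℝ) / b) * hm - ((r * a % b : ℕ) : ℝ) * hrf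
  rw [Finset.sum_congr rfl e, Finset.sum_sub_distrib, ← Finset.mul_sum, ← Finset.mul_sum,
    sum_reflect b fun r => psiR ((r : ℝ) / b), ← cotSum]
  linear_combination (b : ℝ) * hsum

theorem periodic_mod (a b : ℕ) : Function.Periodic (fun m : ℕ => ((m * a % b : ℕ) : ℝ)) b :=
  fun m => by simp [add_mul, Nat.add_mul_mod_self_left]

theorem periodic_wt (a b : ℕ) : Function.Periodic (wt a b) a := fun n => by
  simp only [wt, add_mul, Nat.add_mul_mod_self_left, Nat.dvd_add_self_right]

theorem sum_wt {a b : ℕ} (ha : 0 < a) (f : ℕ → ℝ) :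
    ∑ r ∈ Icc 1 a, wt a b r * f r =
      ∑ r ∈ Icc 1 a, ((r * b % a : ℕ) : ℝ) * f r + (a : ℝ) * f a := by
  simp only [wt, add_mul, Finset.sum_add_distrib, ite_mul, zero_mul]
  congr 1
  rw [Finset.sum_eq_single a]
  · simp
  · intro r hr hne
    rw [if_neg fun h => hne (le_antisymm (Finset.mem_Icc.1 hr).2
      (Nat.le_of_dvd (Finset.mem_Icc.1 hr).1 h))]
  · intro h
    exact absurd (Finset.mem_Icc.2 ⟨ha, le_rfl⟩) h

/-- **Vasyunin's formula**, in the variable `x = 1 / u`. -/
theorem vasyunin {a b : ℕ} (ha : 0 < a) (hb : 0 < b) (hab : Nat.Coprime a b) :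
    ∫ x in Set.Ioi (0 : ℝ), integrand a b x =
      (Real.log (2 * π) - Real.eulerMascheroniConstant) / 2 * (1 / a + 1 / b) +
        ((b : ℝ) - a) / (2 * a * b) * Real.log ((a : ℝ) / b) -
        π / (2 * a * b) * (cotSum a b + cotSum b a) := by
  have hA : (0 : ℝ) < a := Nat.cast_pos.2 ha
  have hB : (0 : ℝ) < b := Nat.cast_pos.2 hb
  have hX : Tendsto (fun N : ℕ => ((N * a : ℕ) : ℝ) * b) atTop atTop :=
    (tendsto_natCast_atTop_atTop.comp (tendsto_id.atTop_mul_const' ha)).atTop_mul_const hB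
  have hI := intervalIntegral_tendsto_integral_Ioi 0 (integrable_integrand ha hb) hX
  refine tendsto_nhds_unique hI ?_
  have hP := sum_periodic hb _ (periodic_mod a b)
  have hC := sum_periodic ha _ (periodic_wt a b)
  have hLa := tendsto_sum_log_div.comp (tendsto_id.atTop_mul_const' (r := a) ha)
  have hLb := tendsto_sum_log_div.comp (tendsto_id.atTop_mul_const' (r := b) hb)
  have hW := sum_wt (b := b) ha fun _ => (1 : ℝ)
  simp only [mul_one] at hW
  rw [sum_mod_eq ha hab.symm] at hW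
  rw [sum_mod_eq hb hab] at hP
  rw [hW, sum_wt (b := b) ha fun r => psiR ((r : ℝ) / a), div_self hA.ne', psiR_one] at hC
  have hall := (((hP.add hC).const_mul (-(1 / ((a : ℝ) * b)))).sub
    ((hLa.const_mul (1 / (a : ℝ))).add (hLb.const_mul (1 / (b : ℝ))))).add_const
      (Real.log a / (2 * a) + Real.log b / (2 * b))
  have hval : (Real.log (2 * π) - Real.eulerMascheroniConstant) / 2 * (1 / a + 1 / b) +
        ((b : ℝ) - a) / (2 * a * b) * Real.log ((a : ℝ) / b) -
        π / (2 * a * b) * (cotSum a b + cotSum b a) =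
      -(1 / ((a : ℝ) * b)) * (-(1 / b) * ∑ r ∈ Icc 1 b, ((r * a % b : ℕ) : ℝ) * psiR ((r : ℝ) / b) +
          -(1 / a) * (∑ r ∈ Icc 1 a, ((r * b % a : ℕ) : ℝ) * psiR ((r : ℝ) / a) +
            (a : ℝ) * -Real.eulerMascheroniConstant)) -
        (1 / (a : ℝ) * (-Real.log (2 * π) / 2) + 1 / (b : ℝ) * (-Real.log (2 * π) / 2)) +
        (Real.log a / (2 * a) + Real.log b / (2 * b)) := by
    rw [Real.log_div hA.ne' hB.ne']
    have h1 := sum_mod_psiR hb hab
    have h2 := sum_mod_psiR ha hab.symm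
    field_simp
    linear_combination (-(a : ℝ)) * h1 - (b : ℝ) * h2
  rw [hval]
  refine hall.congr' ?_
  filter_upwards [eventually_gt_atTop 0] with N hN
  have hN' : (0 : ℝ) < N := Nat.cast_pos.2 hN
  simp only [Function.comp_apply, id]
  rw [intervalIntegral.integral_of_le (by positivity),
    integral_upto ha hb (Nat.mul_pos hN ha) (show N * b * a = N * a * b by ring)]
  simp only [Finset.sum_sub_distrib, Finset.sum_const, Nat.card_Icc, Nat.add_sub_cancel,
    nsmul_eq_mul]
  rw [double_sum ha hb hab, Nat.cast_mul, Nat.cast_mul, Real.log_mul hN'.ne' hA.ne',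
    Real.log_mul hN'.ne' hB.ne']
  field_simp
  ring

end FA.Vasyunin

end
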